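import Fermat.Agent.Gromov.Walk

/-!
# Isoperimetry from growth

The inequality of Coulhon and Saloff-Coste, and its quadratic form: with cubic growth the value at
the identity of a finitely supported function is controlled by its energy.
-/

set_option autoImplicit false

noncomputable section

open Finset
open scoped Pointwise Classical

namespace FA.Gromov.Gen

variable {G : Type*} [Group G] (S : Gen G)

/-- The number of edges that leave a finite set. -/
def boundary (A : Finset G) : ℕ := ∑ s ∈ S.set, (A.filter fun x => x * s ∉ A).card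

theorem card_leave_le (A : Finset G) : ∀ (n : ℕ) (y : G), y ∈ S.ball n →
    (A.filter fun x => x * y ∉ A).card ≤ n * S.boundary A := by
  intro n
  induction n with
  | zero =>
    intro y hy
    rw [S.ball_zero, mem_singleton] at hy
    rw [hy, Finset.filter_eq_empty_iff.2 fun x hx => by simpa using hx]
    simp
  | succ n ih =>
    intro y hy
    rw [ball, pow_succ] at hy
    obtain ⟨a, ha, b, hb, rfl⟩ := Finset.mem_mul.1 hy
    have hsub : (A.filter fun x => x * (a * b) ∉ A) ⊆ (A.filter fun x => x * a ∉ A) ∪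
        (A.filter fun x => x * a ∈ A ∧ x * a * b ∉ A) := fun x hx => by
      simp only [mem_filter, mem_union] at hx ⊢
      by_cases h : x * a ∈ A
      · exact Or.inr ⟨hx.1, h, by rw [mul_assoc]; exact hx.2⟩
      · exact Or.inl ⟨hx.1, h⟩
    have hb' : (A.filter fun x => x * a ∈ A ∧ x * a * b ∉ A).card ≤ S.boundary A := by
      refine le_trans (card_le_card_of_injOn (fun x => x * a)
        (t := A.filter fun x => x * b ∉ A) (fun x hx => ?_) (mul_left_injective a).injOn)
        (single_le_sum (f := fun s => (A.filter fun x => x * s ∉ A).card)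
          (fun s _ => Nat.zero_le _) hb)
      simp only [mem_coe, mem_filter] at hx ⊢
      exact hx.2
    refine (card_le_card hsub).trans ((card_union_le _ _).trans ?_)
    rw [Nat.succ_mul]
    exact Nat.add_le_add (ih a ha) hb'

/-- A ball twice as large as a set moves at least half of it. -/
theorem card_le_boundary {A : Finset G} {n : ℕ} (hn : 2 * A.card ≤ (S.ball n).card) :
    A.card ≤ 2 * n * S.boundary A := by
  have h1 : ∑ y ∈ S.ball n, (A.filter fun x => x * y ∈ A).card ≤ A.card * A.card := by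
    simp only [card_filter]
    rw [sum_comm, ← smul_eq_mul A.card, ← sum_const]
    refine sum_le_sum fun x _ => ?_
    rw [← card_filter]
    exact card_le_card_of_injOn (fun y => x * y) (fun y hy => (mem_filter.1 hy).2)
      (mul_right_injective x).injOn
  have h2 : ∑ y ∈ S.ball n, (A.filter fun x => x * y ∉ A).card ≤
      (S.ball n).card * (n * S.boundary A) := by
    rw [← smul_eq_mul, ← sum_const]
    exact sum_le_sum fun y hy => S.card_leave_le A n y hy
  have h3 : ∑ y ∈ S.ball n,
      ((A.filter fun x => x * y ∈ A).card + (A.filter fun x => x * y ∉ A).card) =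
      (S.ball n).card * A.card := by
    rw [sum_congr rfl fun y _ => card_filter_add_card_filter_not (s := A) fun x => x * y ∈ A,
      sum_const, smul_eq_mul]
  rw [sum_add_distrib] at h3
  nlinarith [S.card_ball_pos n, Nat.mul_le_mul_right A.card hn]

/-- Cubic growth gives a radius whose ball beats a given size. -/
theorem exists_radius {C : ℕ} (hC : ∀ n, (n + 1) ^ 3 ≤ C * (S.ball n).card) (a : ℕ) :
    ∃ n, 2 * a ≤ (S.ball n).card ∧ n ^ 3 ≤ 2 * C * a := by
  have hex : ∃ n, 2 * a ≤ (S.ball n).card := by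
    refine ⟨2 * C * a, ?_⟩
    have h1 := hC (2 * C * a)
    have h2 : 2 * C * a + 1 ≤ (2 * C * a + 1) ^ 3 := Nat.le_self_pow (by norm_num) _
    by_contra hlt
    have h3 : C * (S.ball (2 * C * a)).card ≤ C * (2 * a) := Nat.mul_le_mul_left C (by omega)
    nlinarith
  refine ⟨Nat.find hex, Nat.find_spec hex, ?_⟩
  rcases Nat.eq_zero_or_pos (Nat.find hex) with h | h
  · simp [h]
  · have h1 := Nat.find_min hex (Nat.sub_lt h Nat.one_pos)
    have h2 := hC (Nat.find hex - 1)
    rw [Nat.sub_add_cancel h] at h2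
    exact h2.trans (by rw [mul_comm 2 C, mul_assoc]; exact Nat.mul_le_mul_left _ (by omega))

/-- **The isoperimetric inequality of cubic growth**: `|A| ^ 2 ≤ K |∂A| ^ 3`. -/
theorem isoperimetric_cubic {C : ℕ} (hC : ∀ n, (n + 1) ^ 3 ≤ C * (S.ball n).card)
    {A : Finset G} (hA : A.Nonempty) : A.card ^ 2 ≤ 16 * C * S.boundary A ^ 3 := by
  have ha := card_pos.2 hA
  obtain ⟨n, hn, hn3⟩ := S.exists_radius hC A.card
  have h := Nat.pow_le_pow_left (S.card_le_boundary hn) 3
  refine Nat.le_of_mul_le_mul_right (h.trans ?_) ha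
  calc (2 * n * S.boundary A) ^ 3 = 8 * n ^ 3 * S.boundary A ^ 3 := by ring
    _ ≤ 8 * (2 * C * A.card) * S.boundary A ^ 3 := by gcongr
    _ = _ := by ring

theorem dist_sq_le (f : G →₀ ℝ) : ∀ (n : ℕ) (y : G), y ∈ S.ball n →
    ip (tr y f - f) (tr y f - f) ≤ (n : ℝ) ^ 2 * (2 * S.set.card * S.energy f) := by
  intro n
  induction n with
  | zero =>
    intro y hy
    rw [S.ball_zero, mem_singleton] at hy
    rw [hy, tr_one, sub_self]
    simp [ip]
  | succ n ih =>
    intro y hy
    rw [ball, pow_succ] at hy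
    obtain ⟨a, ha, b, hb, rfl⟩ := Finset.mem_mul.1 hy
    have hE : ip (tr b f - f) (tr b f - f) ≤ 2 * S.set.card * S.energy f := by
      rw [← S.sum_ip_diff]
      exact single_le_sum (f := fun s => ip (tr s f - f) (tr s f - f))
        (fun s _ => ip_self_nonneg _) hb
    set u := tr b (tr a f - f) with hu
    set v := tr b f - f with hv
    have huv : tr (a * b) f - f = u + v := by
      rw [hu, hv, map_sub, tr_tr]
      abel
    have hu' : ip u u ≤ (n : ℝ) ^ 2 * (2 * S.set.card * S.energy f) := by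
      rw [hu, ip_tr]
      exact ih a ha
    rcases Nat.eq_zero_or_pos n with rfl | hn
    · rw [pow_zero, Finset.mem_one] at ha
      rw [ha, one_mul]
      simpa using hE
    have hn' : (0 : ℝ) < n := by exact_mod_cast hn
    have h2 := two_mul_ip_le u ((n : ℝ) • v)
    rw [ip_smul_right, ip_smul_left, ip_smul_right] at h2
    rw [huv]
    simp only [ip_add_left, ip_comm _ (u + v), ip_comm v u]
    push_cast
    have h3 : 2 * ip u v * (n : ℝ) ≤ ip u u + (n : ℝ) * ((n : ℝ) * ip v v) := by linarith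
    have h4 : ((n : ℝ) + 1) * ip u u ≤
        ((n : ℝ) + 1) * ((n : ℝ) ^ 2 * (2 * S.set.card * S.energy f)) :=
      mul_le_mul_of_nonneg_left hu' (by positivity)
    have h5 : (n : ℝ) * ((n : ℝ) + 1) * ip v v ≤
        (n : ℝ) * ((n : ℝ) + 1) * (2 * S.set.card * S.energy f) :=
      mul_le_mul_of_nonneg_left hE (by positivity)
    nlinarith

/-- One dyadic step: the next level set is large. -/
theorem level_step {C : ℕ} (hC : ∀ n, (n + 1) ^ 3 ≤ C * (S.ball n).card) (f : G →₀ ℝ)
    {A B : Finset G} {t : ℝ} (ht : 0 ≤ t) (hAf : ∀ x ∈ A, 2 * t ≤ |f x|)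
    (hBf : ∀ x, x ∉ B → |f x| ≤ t) :
    (A.card : ℝ) ^ 3 * t ^ 6 ≤
      256 * (S.set.card : ℝ) ^ 3 * S.energy f ^ 3 * (C : ℝ) ^ 2 * (B.card : ℝ) ^ 2 := by
  obtain ⟨n, hn, hn3⟩ := S.exists_radius hC B.card
  have hpt : ∀ x ∈ A, ∀ y, y * x ∉ B → t ^ 2 ≤ (tr y f - f) x ^ 2 := fun x hx y hy => by
    rw [Finsupp.sub_apply, tr_apply, ← sq_abs (f (y * x) - f x)]
    refine pow_le_pow_left₀ ht ?_ 2
    rw [abs_sub_comm]
    linarith [abs_sub_abs_le_abs_sub (f x) (f (y * x)), hAf x hx, hBf _ hy]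
  have hbig : ∀ x ∈ A, ((S.ball n).card : ℝ) * t ^ 2 ≤
      2 * ∑ y ∈ S.ball n, (tr y f - f) x ^ 2 := fun x hx => by
    have h1 : ((S.ball n).filter fun y => y * x ∈ B).card ≤ B.card :=
      card_le_card_of_injOn (fun y => y * x) (fun y hy => (mem_filter.1 hy).2)
        (mul_left_injective x).injOn
    have h2 := card_filter_add_card_filter_not (s := S.ball n) fun y => y * x ∈ B
    have h3 : ((S.ball n).card : ℝ) ≤ 2 * ((S.ball n).filter fun y => y * x ∉ B).card := by
      exact_mod_cast (show (S.ball n).card ≤ 2 * ((S.ball n).filter fun y => y * x ∉ B).card by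
        omega)
    refine (mul_le_mul_of_nonneg_right h3 (sq_nonneg t)).trans ?_
    rw [mul_assoc, ← nsmul_eq_mul, ← sum_const]
    exact mul_le_mul_of_nonneg_left
      ((sum_le_sum fun y hy => hpt x hx y (mem_filter.1 hy).2).trans
        (sum_le_sum_of_subset_of_nonneg (filter_subset _ _) fun y _ _ => sq_nonneg _)) two_pos.le
  have hsum : (A.card : ℝ) * (((S.ball n).card : ℝ) * t ^ 2) ≤
      2 * (((S.ball n).card : ℝ) * ((n : ℝ) ^ 2 * (2 * S.set.card * S.energy f))) := by
    rw [← nsmul_eq_mul, ← sum_const]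
    refine (sum_le_sum hbig).trans ?_
    rw [← mul_sum, sum_comm, ← nsmul_eq_mul ((S.ball n).card), ← sum_const]
    refine mul_le_mul_of_nonneg_left (sum_le_sum fun y hy => le_trans ?_ (S.dist_sq_le f n y hy))
      two_pos.le
    rw [ip_eq_sum _ _ (subset_union_left (s₂ := A))]
    simp only [← pow_two]
    exact sum_le_sum_of_subset_of_nonneg subset_union_right fun x _ _ => sq_nonneg _
  have hV : (0 : ℝ) < (S.ball n).card := by exact_mod_cast S.card_ball_pos n
  have h1 : (A.card : ℝ) * t ^ 2 ≤ 4 * (S.set.card * S.energy f) * (n : ℝ) ^ 2 := by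
    refine le_of_mul_le_mul_left ?_ hV
    linarith
  have h2 : ((n : ℝ) ^ 3) ^ 2 ≤ (2 * (C : ℝ) * B.card) ^ 2 :=
    pow_le_pow_left₀ (by positivity) (by exact_mod_cast hn3) 2
  have h3 := pow_le_pow_left₀ (by positivity) h1 3
  have hE := S.energy_nonneg f
  calc (A.card : ℝ) ^ 3 * t ^ 6 = ((A.card : ℝ) * t ^ 2) ^ 3 := by ring
    _ ≤ (4 * (S.set.card * S.energy f) * (n : ℝ) ^ 2) ^ 3 := h3
    _ = 64 * (S.set.card : ℝ) ^ 3 * S.energy f ^ 3 * ((n : ℝ) ^ 3) ^ 2 := by ring
    _ ≤ 64 * (S.set.card : ℝ) ^ 3 * S.energy f ^ 3 * (2 * (C : ℝ) * B.card) ^ 2 :=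
        mul_le_mul_of_nonneg_left h2 (by positivity)
    _ = _ := by ring

/-- **The point has positive capacity.** -/
theorem exists_capacity {C : ℕ} (hC : ∀ n, (n + 1) ^ 3 ≤ C * (S.ball n).card) :
    ∃ K : ℝ, ∀ f : G →₀ ℝ, f 1 ^ 2 ≤ K * S.energy f := by
  set Q : ℝ := 256 * (S.set.card : ℝ) ^ 3 * (C : ℝ) ^ 2 * 2 ^ 18 with hQ
  refine ⟨Q + 1, fun f => ?_⟩
  rcases eq_or_ne (f 1) 0 with h0 | h0
  · rw [h0]
    have := S.energy_nonneg f
    have : 0 ≤ Q := by positivity
    simp only [ne_eq, OfNat.ofNat_ne_zero, not_false_eq_true, zero_pow]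
    positivity
  by_contra hlt
  rw [not_le] at hlt
  set g := (|f 1|)⁻¹ • f with hg
  have hg1 : |g 1| = 1 := by
    rw [hg, Finsupp.smul_apply, smul_eq_mul, abs_mul, abs_inv, abs_abs,
      inv_mul_cancel₀ (abs_ne_zero.2 h0)]
  have hEg : S.energy g * (Q + 1) < 1 := by
    have h1 : S.energy g = (|f 1|)⁻¹ ^ 2 * S.energy f := by
      simp only [hg, energy, map_smul, ip_smul_left, ip_smul_right]
      ring
    rw [h1, inv_pow, sq_abs, inv_mul_eq_div, div_mul_eq_mul_div, div_lt_one (sq_pos_of_ne_zero h0)]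
    linarith
  have hE := S.energy_nonneg g
  have hQ0 : 0 ≤ Q := by positivity
  have hE1 : S.energy g ≤ 1 := by nlinarith
  have hsmall : Q * S.energy g ^ 3 ≤ 1 := by
    have : S.energy g ^ 3 ≤ S.energy g := pow_le_of_le_one hE hE1 (by norm_num)
    nlinarith
  set lv : ℕ → Finset G := fun k => g.support.filter fun x => (1 / 2 : ℝ) ^ k ≤ |g x| with hlv
  have hmain : ∀ k, (64 : ℝ) ^ k ≤ (lv k).card := by
    intro k
    induction k with
    | zero =>
      rw [pow_zero, Nat.one_le_cast, Nat.one_le_iff_ne_zero, ← Nat.pos_iff_ne_zero, card_pos]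
      refine ⟨1, mem_filter.2 ⟨Finsupp.mem_support_iff.2 fun h => ?_, by rw [hg1, pow_zero]⟩⟩
      rw [h, abs_zero] at hg1
      exact zero_ne_one hg1
    | succ k ih =>
      have h1 := S.level_step hC g (A := lv k) (B := lv (k + 1)) (t := (1 / 2 : ℝ) ^ (k + 1))
        (by positivity) (fun x hx => by
          have := (mem_filter.1 hx).2
          rw [pow_succ]
          linarith)
        (fun x hx => by
          by_cases hxs : x ∈ g.support
          · by_contra hgt
            exact hx (mem_filter.2 ⟨hxs, (not_le.1 hgt).le⟩)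
          · rw [Finsupp.notMem_support_iff.1 hxs, abs_zero]
            positivity)
      refine le_of_sq_le_sq ?_ (Nat.cast_nonneg _)
      have h2 : ((64 : ℝ) ^ k) ^ 3 * ((1 / 2 : ℝ) ^ (k + 1)) ^ 6 ≤
          256 * (S.set.card : ℝ) ^ 3 * S.energy g ^ 3 * (C : ℝ) ^ 2 *
            ((lv (k + 1)).card : ℝ) ^ 2 :=
        le_trans (mul_le_mul_of_nonneg_right (pow_le_pow_left₀ (by positivity) ih 3)
          (by positivity)) h1
      have e1 : ((1 / 2 : ℝ) ^ (k + 1)) ^ 6 = (1 / 64) ^ k / 64 := by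
        rw [← pow_mul, mul_comm, pow_mul, pow_succ]
        norm_num
        ring
      have e2 : ((64 : ℝ) ^ k) ^ 3 * (((1 / 64 : ℝ)) ^ k / 64) = ((64 : ℝ) ^ k) ^ 2 / 64 := by
        rw [div_pow, one_pow]
        field_simp
      rw [e1, e2, div_le_iff₀ (by norm_num)] at h2
      have h3 : (Q * S.energy g ^ 3) * ((lv (k + 1)).card : ℝ) ^ 2 ≤
          1 * ((lv (k + 1)).card : ℝ) ^ 2 := mul_le_mul_of_nonneg_right hsmall (sq_nonneg _)
      rw [pow_succ (64 : ℝ) k, mul_pow]
      rw [hQ] at h3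
      linarith
  obtain ⟨k, hk⟩ := pow_unbounded_of_one_lt (g.support.card : ℝ) (by norm_num : (1 : ℝ) < 64)
  have := (hmain k).trans (Nat.cast_le.2 (card_filter_le _ _))
  linarith

end FA.Gromov.Gen
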