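import Fermat.Agent.Varopoulos.Isoperimetric
import Mathlib.Algebra.QuadraticDiscriminant
import Mathlib.Analysis.Normed.Group.InfiniteSum
import Mathlib.Topology.Algebra.InfiniteSum.Real

/-!
# Recurrence and capacity

The return series of the walk converges when the identity has positive capacity, and diverges when
the balls grow at most quadratically.
-/

set_option autoImplicit false

noncomputable section

open Finset Filter
open scoped Pointwise Classical Topology

namespace FA.Gromov.Gen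

variable {G : Type*} [Group G] (S : Gen G)

theorem walk_nonneg : ∀ (k : ℕ) (x : G), 0 ≤ S.walk k x
  | 0, x => by
    rw [walk, Finsupp.single_apply]
    split_ifs <;> norm_num
  | k + 1, x => by
    rw [walk, avg_apply]
    exact mul_nonneg (inv_nonneg.2 S.set_card_pos.le) (sum_nonneg fun s _ => walk_nonneg k _)

/-- The expected number of visits before time `n`. -/
def green (n : ℕ) : G →₀ ℝ := ∑ k ∈ range n, S.walk k

theorem green_sub_avg (n : ℕ) : S.green n - S.avg (S.green n) = S.walk 0 - S.walk n := by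
  rw [green, map_sum, ← sum_sub_distrib]
  exact sum_range_sub' S.walk n

theorem green_nonneg (n : ℕ) (x : G) : 0 ≤ S.green n x := by
  rw [green, Finsupp.finsetSum_apply]
  exact sum_nonneg fun k _ => S.walk_nonneg k x

theorem ip_walk_zero (f : G →₀ ℝ) : ip (S.walk 0) f = f 1 := by
  simp [ip, walk, Finsupp.linearCombination_single]

theorem energy_green_le (n : ℕ) : S.energy (S.green n) ≤ S.green n 1 := by
  have h : S.energy (S.green n) = ip (S.green n - S.avg (S.green n)) (S.green n) := by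
    rw [energy, ip_sub_left]
  have h' : 0 ≤ ip (S.walk n) (S.green n) := by
    rw [ip_eq_sum _ _ (Finset.Subset.refl _)]
    exact sum_nonneg fun x _ => mul_nonneg (S.walk_nonneg n x) (S.green_nonneg n x)
  rw [h, green_sub_avg, ip_sub_left, ip_walk_zero]
  linarith

/-- **Positive capacity gives transience.** -/
theorem summable_of_capacity {K : ℝ} (hK : ∀ f : G →₀ ℝ, f 1 ^ 2 ≤ K * S.energy f) :
    Summable fun k => S.walk k 1 := by
  refine summable_of_sum_range_le (c := max K 0) (fun k => S.walk_nonneg k 1) fun n => ?_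
  have h1 : ∑ k ∈ range n, S.walk k 1 = S.green n 1 := (Finsupp.finsetSum_apply _ _ _).symm
  rw [h1]
  have h2 := hK (S.green n)
  have h3 := mul_le_mul_of_nonneg_left (S.energy_green_le n) (le_max_right K 0)
  have h4 := mul_le_mul_of_nonneg_right (le_max_left K 0) (S.energy_nonneg (S.green n))
  rcases (S.green_nonneg n 1).eq_or_lt with h | h
  · rw [← h]
    exact le_max_right _ _
  · exact le_of_mul_le_mul_right (by nlinarith) h

theorem ip_energy_sq_le (f g : G →₀ ℝ) :
    ip (f - S.avg f) g ^ 2 ≤ S.energy f * S.energy g := by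
  have hadd : ∀ a b c : G →₀ ℝ, ip a (b + c) = ip a b + ip a c := fun a b c => by
    rw [ip_comm, ip_add_left, ip_comm b, ip_comm c]
  have h : ∀ t : ℝ,
      0 ≤ S.energy g * (t * t) + 2 * ip (f - S.avg f) g * t + S.energy f := fun t => by
    have h0 := S.energy_nonneg (f + t • g)
    simp only [energy, map_add, map_smul, ip_add_left, hadd, ip_smul_left, ip_smul_right] at h0
    simp only [energy, ip_sub_left]
    rw [S.ip_avg_comm g f, ip_comm g (S.avg f)] at h0
    rw [ip_comm g f] at h0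
    linarith
  have h2 := discrim_le_zero h
  rw [discrim] at h2
  linarith

/-- **Test functions of small energy give recurrence.** -/
theorem not_summable_of_test
    (h : ∀ ε : ℝ, 0 < ε → ∃ φ : G →₀ ℝ, φ 1 = 1 ∧ S.energy φ ≤ ε) :
    ¬ Summable fun k => S.walk k 1 := by
  intro hs
  set Z := ∑' k, S.walk k 1 with hZ
  have hZ0 : 0 ≤ Z := tsum_nonneg fun k => S.walk_nonneg k 1
  obtain ⟨φ, hφ1, hφE⟩ := h (1 / (2 * (Z + 1))) (by positivity)
  have hsmall : Tendsto (fun n => ip (S.walk n) φ) atTop (𝓝 0) := by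
    have h0 : Tendsto (fun n => S.walk (n + n) 1) atTop (𝓝 0) :=
      hs.tendsto_atTop_zero.comp
        (tendsto_atTop_mono (fun n => Nat.le_add_right n n) tendsto_id)
    have h1 : Tendsto (fun n => Real.sqrt (S.walk (n + n) 1) * Real.sqrt (ip φ φ)) atTop (𝓝 0) := by
      simpa using h0.sqrt.mul_const (Real.sqrt (ip φ φ))
    refine squeeze_zero_norm (fun n => ?_) h1
    rw [Real.norm_eq_abs, ← Real.sqrt_sq_eq_abs, ← Real.sqrt_mul (S.walk_nonneg _ _)]
    refine Real.sqrt_le_sqrt ((ip_sq_le _ _).trans (le_of_eq ?_))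
    rw [S.ip_walk n n, ip_comm, S.ip_walk_zero]
  have hle : ∀ n, (1 : ℝ) - ip (S.walk n) φ ≤ Real.sqrt (Z * S.energy φ) := fun n => by
    refine (le_abs_self _).trans ?_
    rw [← Real.sqrt_sq_eq_abs]
    refine Real.sqrt_le_sqrt ?_
    have h1 := S.ip_energy_sq_le (S.green n) φ
    rw [green_sub_avg, ip_sub_left, S.ip_walk_zero, hφ1] at h1
    refine h1.trans (mul_le_mul_of_nonneg_right ((S.energy_green_le n).trans ?_)
      (S.energy_nonneg φ))
    rw [green, Finsupp.finsetSum_apply]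
    exact hs.sum_le_tsum _ fun k _ => S.walk_nonneg k 1
  have hlim := le_of_tendsto' (hsmall.const_sub 1) hle
  rw [sub_zero, Real.one_le_sqrt] at hlim
  have h2 : Z * S.energy φ ≤ Z * (1 / (2 * (Z + 1))) := mul_le_mul_of_nonneg_left hφE hZ0
  have h3 : Z * (1 / (2 * (Z + 1))) < 1 := by
    rw [mul_one_div, div_lt_one (by positivity)]
    linarith
  linarith

/-- The plateau of radius `4 ^ j`. -/
def plateau (j : ℕ) (x : G) : ℝ := min 1 (max 0 (2 - (S.len x : ℝ) / 4 ^ j))

theorem plateau_diff (j : ℕ) {x y : G} (hxy : |(S.len y : ℝ) - S.len x| ≤ 1) :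
    |S.plateau j y - S.plateau j x| ≤ 1 / 4 ^ j ∧
      (S.plateau j y - S.plateau j x ≠ 0 → 4 ^ j ≤ S.len x + 1 ∧ S.len x ≤ 2 * 4 ^ j) := by
  have h4 : (0 : ℝ) < 4 ^ j := by positivity
  refine ⟨?_, fun hne => ?_⟩
  · refine (abs_min_sub_min_le_max _ _ _ _).trans (max_le (by simp) ?_)
    refine (abs_max_sub_max_le_max _ _ _ _).trans (max_le (by simp) ?_)
    rw [sub_sub_sub_cancel_left, ← sub_div, abs_div, abs_of_pos h4, abs_sub_comm]
    exact div_le_div_of_nonneg_right hxy h4.le
  · rw [abs_le] at hxy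
    constructor
    · by_contra hlt
      have h1 : (S.len x : ℝ) + 1 < 4 ^ j := by exact_mod_cast not_le.1 hlt
      have e : ∀ l : ℝ, l ≤ 4 ^ j → min 1 (max 0 (2 - l / 4 ^ j)) = 1 := fun l hl => by
        have : l / 4 ^ j ≤ 1 := by rwa [div_le_one h4]
        exact min_eq_left (le_max_of_le_right (by linarith))
      exact hne (by rw [plateau, plateau, e _ (by linarith), e _ (by linarith), sub_self])
    · by_contra hlt
      have h1 : (2 * 4 ^ j + 1 : ℝ) ≤ S.len x := by exact_mod_cast not_le.1 hlt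
      have e : ∀ l : ℝ, 2 * 4 ^ j ≤ l → min 1 (max 0 (2 - l / 4 ^ j)) = 0 := fun l hl => by
        have : 2 ≤ l / 4 ^ j := by rwa [le_div_iff₀ h4]
        rw [max_eq_left (by linarith), min_eq_right zero_le_one]
      exact hne (by rw [plateau, plateau, e _ (by linarith), e _ (by linarith), sub_self])

theorem len_mul_left (x : G) {s : G} (hs : s ∈ S.set) : |(S.len (s * x) : ℝ) - S.len x| ≤ 1 := by
  have h1 := S.mem_ball_iff.1 (S.mul_mem_ball (S.mem_ball_one hs) (S.mem_ball_iff.2 le_rfl) :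
    s * x ∈ S.ball (1 + S.len x))
  have h2 := S.mem_ball_iff.1 (S.mul_mem_ball (S.mem_ball_one (S.inv_mem s hs))
    (S.mem_ball_iff.2 le_rfl) : s⁻¹ * (s * x) ∈ S.ball (1 + S.len (s * x)))
  rw [inv_mul_cancel_left] at h2
  rw [abs_le]
  constructor
  · have : (S.len x : ℝ) ≤ 1 + S.len (s * x) := by exact_mod_cast h2
    linarith
  · have : (S.len (s * x) : ℝ) ≤ 1 + S.len x := by exact_mod_cast h1
    linarith

/-- Quadratic growth gives test functions of small energy. -/
theorem exists_test {C : ℕ} (hC : ∀ n, (S.ball n).card ≤ C * (n + 1) ^ 2) {ε : ℝ} (hε : 0 < ε) :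
    ∃ φ : G →₀ ℝ, φ 1 = 1 ∧ S.energy φ ≤ ε := by
  obtain ⟨m, hm⟩ := exists_nat_gt (5 * (C : ℝ) / ε)
  have hm0 : (0 : ℝ) < m := lt_of_le_of_lt (by positivity) hm
  set F : G → ℝ := fun x => (m : ℝ)⁻¹ * ∑ j ∈ range m, S.plateau j x with hF
  have hout : ∀ x, x ∉ S.ball (2 * 4 ^ m) → F x = 0 := fun x hx => by
    rw [hF]
    simp only
    rw [sum_eq_zero fun j hj => ?_, mul_zero]
    rw [mem_ball_iff, not_le] at hx
    have h1 : (2 * 4 ^ j : ℝ) ≤ S.len x := by
      have : 4 ^ j ≤ 4 ^ m := Nat.pow_le_pow_right (by norm_num) (mem_range.1 hj).le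
      exact_mod_cast (show 2 * 4 ^ j ≤ S.len x by omega)
    rw [plateau, max_eq_left, min_eq_right zero_le_one]
    rw [sub_nonpos, le_div_iff₀ (by positivity)]
    exact h1
  set φ : G →₀ ℝ := Finsupp.onFinset (S.ball (2 * 4 ^ m)) F
    (fun x hx => by by_contra h; exact hx (hout x h)) with hφ
  have hval : ∀ x, φ x = F x := fun x => rfl
  refine ⟨φ, ?_, ?_⟩
  · have hlen : S.len 1 = 0 := Nat.le_zero.1 (S.mem_ball_iff.1 (S.one_mem_ball 0))
    rw [hval, hF]
    simp [plateau, hlen, hm0.ne']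
  set A := S.ball (2 * 4 ^ m + 1) with hA
  have hsupp : ∀ s ∈ S.set, (tr s φ - φ).support ⊆ A := fun s hs x hx => by
    rw [Finsupp.mem_support_iff, Finsupp.sub_apply, tr_apply] at hx
    by_contra hxA
    rw [hA, mem_ball_iff, not_le] at hxA
    have h1 := S.len_mul_left x hs
    rw [abs_le] at h1
    have e : ∀ y, 2 * 4 ^ m < S.len y → φ y = 0 := fun y hy => by
      rw [hval, hout]
      rw [mem_ball_iff]
      omega
    have h2 : (2 * 4 ^ m + 1 + 1 : ℝ) ≤ S.len x := by exact_mod_cast hxA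
    have h3 : ((2 * 4 ^ m : ℕ) : ℝ) < (S.len (s * x) : ℝ) := by push_cast; linarith
    exact hx (by rw [e _ (by exact_mod_cast h3), e _ (by omega), sub_self])
  have hedge : ∀ s ∈ S.set, ∀ x, (tr s φ - φ) x ^ 2 ≤
      ((m : ℝ)⁻¹) ^ 2 *
        ∑ j ∈ range m, if S.len x ≤ 2 * 4 ^ j then (1 / (4 : ℝ) ^ j) ^ 2 else 0 := by
    intro s hs x
    rw [Finsupp.sub_apply, tr_apply, hval, hval, hF]
    simp only
    rw [← mul_sub, ← sum_sub_distrib, mul_pow]
    refine mul_le_mul_of_nonneg_left ?_ (sq_nonneg _)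
    set D : ℕ → ℝ := fun j => S.plateau j (s * x) - S.plateau j x with hD
    have hd := fun j => S.plateau_diff j (S.len_mul_left x hs)
    have hone : (∑ j ∈ range m, D j) ^ 2 = ∑ j ∈ range m, D j ^ 2 := by
      rw [pow_two, sum_mul_sum]
      refine sum_congr rfl fun i hi => ?_
      rw [sum_eq_single i (fun j _ hji => ?_) (fun h => absurd hi h), pow_two]
      by_contra hne
      obtain ⟨hne1, hne2⟩ := ne_zero_and_ne_zero_of_mul hne
      obtain ⟨a1, a2⟩ := (hd i).2 hne1
      obtain ⟨b1, b2⟩ := (hd j).2 hne2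
      have key : ∀ a b : ℕ, a < b → 4 ^ b ≤ S.len x + 1 → S.len x ≤ 2 * 4 ^ a → False :=
        fun a b hab hb ha => by
          have h1 : 4 ^ (a + 1) ≤ 4 ^ b := Nat.pow_le_pow_right (by norm_num) hab
          have h2 : 1 ≤ 4 ^ a := Nat.one_le_pow _ _ (by norm_num)
          rw [pow_succ] at h1
          omega
      rcases Nat.lt_or_gt_of_ne hji with h | h
      · exact key j i h a1 b2
      · exact key i j h b1 a2
    rw [hone]
    refine sum_le_sum fun j _ => ?_
    split_ifs with hle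
    · rw [← sq_abs]
      exact pow_le_pow_left₀ (abs_nonneg _) (hd j).1 2
    · have : D j = 0 := by
        by_contra hne
        exact hle ((hd j).2 hne).2
      simp [this]
  have hcount : ∀ j ∈ range m,
      ∑ x ∈ A, (if S.len x ≤ 2 * 4 ^ j then (1 / (4 : ℝ) ^ j) ^ 2 else (0 : ℝ)) ≤
        9 * (C : ℝ) := fun j _ => by
    rw [← sum_filter, sum_const, nsmul_eq_mul]
    have h1 : (A.filter fun x => S.len x ≤ 2 * 4 ^ j).card ≤ C * (3 * 4 ^ j) ^ 2 := by
      refine le_trans (le_trans (card_le_card fun x hx => S.mem_ball_iff.2 (mem_filter.1 hx).2)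
        (hC _)) (Nat.mul_le_mul_left _ (Nat.pow_le_pow_left ?_ 2))
      have := Nat.one_le_pow j 4 (by norm_num)
      omega
    have h2 : ((A.filter fun x => S.len x ≤ 2 * 4 ^ j).card : ℝ) ≤ (C : ℝ) * (3 * 4 ^ j) ^ 2 := by
      exact_mod_cast h1
    refine (mul_le_mul_of_nonneg_right h2 (sq_nonneg _)).trans (le_of_eq ?_)
    field_simp
    norm_num
  have hsum := S.sum_ip_diff φ
  have hbound : ∑ s ∈ S.set, ip (tr s φ - φ) (tr s φ - φ) ≤
      ∑ _s ∈ S.set, ((m : ℝ)⁻¹) ^ 2 * ((m : ℝ) * (9 * C)) := sum_le_sum fun s hs => by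
    rw [ip_eq_sum _ _ (hsupp s hs)]
    simp only [← pow_two]
    refine (sum_le_sum fun x _ => hedge s hs x).trans ?_
    rw [← mul_sum, sum_comm]
    refine mul_le_mul_of_nonneg_left ((sum_le_sum hcount).trans (le_of_eq ?_)) (sq_nonneg _)
    rw [sum_const, card_range, nsmul_eq_mul]
  rw [hsum, sum_const, nsmul_eq_mul] at hbound
  have h1 : 2 * S.energy φ ≤ 9 * C / m := by
    refine le_of_mul_le_mul_left ?_ S.set_card_pos
    refine le_trans (le_of_eq (by ring)) (hbound.trans (le_of_eq ?_))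
    field_simp
  rw [div_lt_iff₀ hε] at hm
  have h2 : 9 * (C : ℝ) / m ≤ 2 * ε := by
    rw [div_le_iff₀ hm0]
    linarith
  linarith

end FA.Gromov.Gen
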