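import Fermat.Agent.Varopoulos.Trichotomy
import Fermat.Agent.Varopoulos.Recurrence

/-!
# Varopoulos's theorem

The walk on a finitely generated group returns with summable probabilities unless the group is
finite, virtually `ℤ` or virtually `ℤ²`; these three kinds have at most quadratic growth.
-/

set_option autoImplicit false

noncomputable section

open Finset Filter
open scoped Pointwise Classical Topology

namespace FA.Varopoulos

open FA.Gromov

variable {G : Type*} [Group G]

theorem growthLE_of_finite [Finite G] : GrowthLE G 0 := fun T =>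
  ⟨Nat.card G, fun n => by
    have := Fintype.ofFinite G
    rw [pow_zero, mul_one, Nat.card_eq_fintype_card]
    exact card_le_univ _⟩

/-- Growth of a given degree passes up through finite index. -/
theorem growthLE_of_finiteIndex (H : Subgroup G) [H.FiniteIndex] {d : ℕ} (hd : GrowthLE H d) :
    GrowthLE G d := by
  intro T
  have : Finite (G ⧸ H) := Subgroup.finite_quotient_of_finiteIndex
  have := Fintype.ofFinite (G ⧸ H)
  let rep : G → G := fun g => ((g⁻¹ : G) : G ⧸ H).out⁻¹
  set R : Finset G := insert 1 ((univ : Finset (G ⧸ H)).image fun q => q.out⁻¹) with hR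
  have hrep : ∀ g, g * (rep g)⁻¹ ∈ H := fun g => by
    simp only [rep, inv_inv]
    rw [← inv_inv g, ← QuotientGroup.eq, inv_inv]
    exact (QuotientGroup.out_eq' _).symm
  have hmem : ∀ g, rep g ∈ R := fun g => mem_insert_of_mem (mem_image_of_mem _ (mem_univ _))
  set T₀ : Finset H := (R * T * R⁻¹).subtype (· ∈ H) with hT₀
  obtain ⟨C, hC⟩ := hd T₀
  refine ⟨C * R.card, fun n => ?_⟩
  have hsub : ∀ n, T ^ n ⊆ (T₀ ^ n).image (fun h : H => (h : G)) * R := by
    intro n
    induction n with
    | zero =>
      intro x hx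
      rw [pow_zero, Finset.mem_one] at hx
      subst hx
      exact Finset.mem_mul.2 ⟨1, mem_image.2 ⟨1, by simp, rfl⟩, 1, mem_insert_self _ _, mul_one _⟩
    | succ n ih =>
      intro x hx
      rw [pow_succ] at hx
      obtain ⟨z, hz, s, hs, rfl⟩ := Finset.mem_mul.1 hx
      obtain ⟨_, hh, r, hr, rfl⟩ := Finset.mem_mul.1 (ih hz)
      obtain ⟨h, hh', rfl⟩ := mem_image.1 hh
      refine Finset.mem_mul.2 ⟨(h : G) * (r * s * (rep (r * s))⁻¹),
        mem_image.2 ⟨h * ⟨_, hrep (r * s)⟩, ?_, rfl⟩, rep (r * s), hmem _, by group⟩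
      rw [pow_succ]
      refine Finset.mul_mem_mul hh' ?_
      rw [hT₀, Finset.mem_subtype]
      exact Finset.mul_mem_mul (Finset.mul_mem_mul hr hs) (Finset.inv_mem_inv (hmem _))
  calc (T ^ n).card ≤ ((T₀ ^ n).image (fun h : H => (h : G)) * R).card := card_le_card (hsub n)
    _ ≤ ((T₀ ^ n).image (fun h : H => (h : G))).card * R.card := Finset.card_mul_le
    _ ≤ C * (n + 1) ^ d * R.card :=
        Nat.mul_le_mul_right _ (card_image_le.trans (by convert hC n using 0; congr!))
    _ = _ := by ring

theorem growthLE_intSq : GrowthLE (Multiplicative (ℤ × ℤ)) 2 := by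
  intro T
  set L : ℕ := T.sup fun x => max x.toAdd.1.natAbs x.toAdd.2.natAbs with hL
  refine ⟨(2 * L + 1) ^ 2, fun n => ?_⟩
  have hsub : ∀ n : ℕ, T ^ n ⊆ ((Icc (-((n * L : ℕ) : ℤ)) (n * L : ℕ)) ×ˢ
      (Icc (-((n * L : ℕ) : ℤ)) (n * L : ℕ))).image Multiplicative.ofAdd := by
    intro n
    induction n with
    | zero =>
      intro x hx
      rw [pow_zero, Finset.mem_one] at hx
      subst hx
      exact mem_image.2 ⟨0, by simp [Prod.mk_zero_zero], rfl⟩
    | succ n ih =>
      intro x hx
      rw [pow_succ] at hx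
      obtain ⟨z, hz, s, hs, rfl⟩ := Finset.mem_mul.1 hx
      obtain ⟨w, hw, rfl⟩ := mem_image.1 (ih hz)
      have hsL : max s.toAdd.1.natAbs s.toAdd.2.natAbs ≤ L :=
        Finset.le_sup (f := fun x => max x.toAdd.1.natAbs x.toAdd.2.natAbs) hs
      simp only [mem_product, mem_Icc] at hw
      refine mem_image.2 ⟨w + s.toAdd, ?_, rfl⟩
      simp only [mem_product, mem_Icc, Prod.fst_add, Prod.snd_add, Nat.succ_mul]
      omega
  refine le_trans (le_of_eq (by congr!)) ((card_le_card (hsub n)).trans (card_image_le.trans ?_))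
  rw [card_product, Int.card_Icc, show ((n * L : ℕ) : ℤ) + 1 - -((n * L : ℕ) : ℤ) =
    ((2 * (n * L) + 1 : ℕ) : ℤ) by push_cast; ring, Int.toNat_natCast, ← pow_two, ← mul_pow]
  exact Nat.pow_le_pow_left (by nlinarith) 2

/-- Finite, virtually `ℤ` and virtually `ℤ²` groups grow at most quadratically. -/
theorem growthLE_two (h : Finite G ∨ IsVirtuallyInt G ∨ IsVirtuallyIntSq G) : GrowthLE G 2 := by
  rcases h with h | ⟨N, hN, ⟨e⟩⟩ | ⟨N, hN, ⟨e⟩⟩
  · have := h
    exact growthLE_of_finite.mono (by norm_num)
  · have := hN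
    refine growthLE_of_finiteIndex N (growthLE_intSq.of_injective
      ((AddMonoidHom.inl ℤ ℤ).toMultiplicative.comp e.toMonoidHom) ?_)
    exact fun a b hab => e.injective (Prod.ext_iff.1 hab).1
  · have := hN
    exact growthLE_of_finiteIndex N (growthLE_intSq.of_injective e.toMonoidHom e.injective)

/-- The number of words of length `n` with a given product. -/
def wordCount (S : Finset G) (n : ℕ) (x : G) : ℕ :=
  ((univ : Finset (Fin n → S)).filter fun w => (List.ofFn fun i => (w i : G)).prod = x).card

/-- The chance that a word of `n` independent uniform letters from `S` is the identity. -/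
def returnProb (S : Finset G) (n : ℕ) : ℝ := (wordCount S n 1 : ℝ) / (S.card : ℝ) ^ n

theorem wordCount_succ (S : Finset G) (n : ℕ) (x : G) :
    wordCount S (n + 1) x = ∑ s ∈ S, wordCount S n (s⁻¹ * x) := by
  simp only [wordCount, card_filter]
  rw [← Finset.sum_coe_sort S,
    ← (Fin.consEquiv fun _ : Fin (n + 1) => {s // s ∈ S}).sum_comp, Fintype.sum_prod_type]
  refine sum_congr rfl fun s _ => sum_congr rfl fun w _ => ?_
  simp [List.ofFn_succ, eq_inv_mul_iff_mul_eq]

theorem walk_eq_count (S : Gen G) : ∀ (n : ℕ) (x : G),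
    S.walk n x = (wordCount S.set n x : ℝ) / (S.set.card : ℝ) ^ n
  | 0, x => by
    rw [Gen.walk, Finsupp.single_apply]
    simp only [wordCount, List.ofFn_zero, List.prod_nil, pow_zero, div_one, card_filter]
    split_ifs <;> simp
  | n + 1, x => by
    rw [Gen.walk, S.avg_apply, ← S.sum_inv fun s => S.walk n (s * x), wordCount_succ]
    push_cast
    rw [sum_div, mul_sum]
    refine sum_congr rfl fun s _ => ?_
    rw [walk_eq_count S n, pow_succ, mul_comm ((S.set.card : ℝ) ^ n), ← div_div, inv_mul_eq_div,
      div_div, div_div, mul_comm (S.set.card : ℝ)]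

theorem returnProb_eq (S : Gen G) (n : ℕ) : returnProb S.set n = S.walk n 1 :=
  (walk_eq_count S n 1).symm

/-- **Varopoulos's theorem.** -/
theorem summable_iff (S : Gen G) (hG : Group.FG G) :
    Summable (returnProb S.set) ↔ ¬ (Finite G ∨ IsVirtuallyInt G ∨ IsVirtuallyIntSq G) := by
  rw [show returnProb S.set = fun k => S.walk k 1 from funext (returnProb_eq S)]
  refine ⟨fun hs hsmall => ?_, fun hsmall => ?_⟩
  · obtain ⟨C, hC⟩ := growthLE_two hsmall S.set
    exact S.not_summable_of_test (fun ε hε => S.exists_test hC hε) hs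
  · simp only [not_or] at hsmall
    have := not_finite_iff_infinite.1 hsmall.1
    rcases trichotomy hG with h | h | h
    · exact absurd h hsmall.2.1
    · exact absurd h hsmall.2.2
    · obtain ⟨C, hC⟩ := h.exists_ball S
      obtain ⟨K, hK⟩ := S.exists_capacity hC
      exact S.summable_of_capacity hK

end FA.Varopoulos
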