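import Fermat.Agent.Gromov.Main
import Fermat.Agent.Gromov.Converse
import Fermat.Agent.LinearGrowth.Growth
import Mathlib.GroupTheory.SpecificGroups.Cyclic

/-!
# Small growth

An infinite finitely generated group is virtually `ℤ`, virtually `ℤ²`, or has at least cubic growth:
by the weak form of Gromov's theorem one may assume nilpotence, and then split off two copies of
`ℤ`.
-/

set_option autoImplicit false

noncomputable section

open Finset
open scoped Pointwise Classical

namespace FA.Varopoulos

open FA.Gromov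

variable {G : Type*} [Group G]

/-- Some finite set has balls growing at least like the power `k` of the radius. -/
def Grows (G : Type*) [Group G] (k : ℕ) : Prop :=
  ∃ (T : Finset G) (C : ℕ), ∀ n : ℕ, (n + 1) ^ k ≤ C * (T ^ n).card

theorem Grows.of_injective {H : Type*} [Group H] {k : ℕ} (h : Grows H k) (f : H →* G)
    (hf : Function.Injective f) : Grows G k := by
  obtain ⟨T, C, hC⟩ := h
  exact ⟨T.image f, C, fun n => by
    rw [← Finset.image_pow, card_image_of_injective _ hf]; exact hC n⟩

/-- Any generating set sees the growth. -/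
theorem Grows.exists_ball (S : Gen G) {k : ℕ} (h : Grows G k) :
    ∃ C : ℕ, ∀ n : ℕ, (n + 1) ^ k ≤ C * (S.ball n).card := by
  obtain ⟨T, C, hC⟩ := h
  obtain ⟨L, hL⟩ := S.exists_subset_ball T
  refine ⟨(L + 1) ^ k * C, fun n => ?_⟩
  have hdm := Nat.div_add_mod n (L + 1)
  have hmod : n % (L + 1) < L + 1 := Nat.mod_lt n (Nat.succ_pos L)
  calc (n + 1) ^ k ≤ ((L + 1) * (n / (L + 1) + 1)) ^ k := by gcongr; nlinarith
    _ = (L + 1) ^ k * (n / (L + 1) + 1) ^ k := mul_pow _ _ _
    _ ≤ (L + 1) ^ k * (C * (T ^ (n / (L + 1))).card) := Nat.mul_le_mul_left _ (hC _)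
    _ ≤ (L + 1) ^ k * (C * (S.ball n).card) := by
        refine Nat.mul_le_mul_left _ (Nat.mul_le_mul_left _ (card_le_card ?_))
        refine (Finset.pow_subset_pow_left hL).trans ?_
        rw [Gen.ball, Gen.ball, ← pow_mul]
        exact Finset.pow_subset_pow_right S.one_mem
          (le_trans (Nat.mul_le_mul_right _ (Nat.le_succ L)) ((Nat.le_add_right _ _).trans hdm.le))
    _ = _ := (mul_assoc _ _ _).symm

/-- The balls of an infinite group grow strictly. -/
theorem ball_card_gt [Infinite G] (S : Gen G) : ∀ n : ℕ, n + 1 ≤ (S.ball n).card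
  | 0 => by rw [S.ball_zero, card_singleton]
  | n + 1 => by
    have hne : S.ball n ≠ S.ball (n + 1) := fun he => by
      have hstab : ∀ j, S.ball (n + j) ⊆ S.ball n := fun j => by
        induction j with
        | zero => exact Finset.Subset.refl _
        | succ j ih =>
          rw [Gen.ball, ← add_assoc, pow_succ]
          refine (Finset.mul_subset_mul_right ih).trans ?_
          rw [Gen.ball, ← pow_succ]
          exact he.ge
      obtain ⟨x, hx⟩ := Infinite.exists_notMem_finset (S.ball n)
      obtain ⟨m, hm⟩ := S.exists_mem_ball x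
      exact hx (hstab m (S.ball_mono (Nat.le_add_left m n) hm))
    have := card_lt_card (lt_of_le_of_ne (S.ball_mono (Nat.le_succ n)) hne)
    have := ball_card_gt S n
    show n + 1 + 1 ≤ (S.ball (n + 1)).card
    simp only [Nat.succ_eq_add_one] at *
    omega

theorem grows_one [Infinite G] (hG : Group.FG G) : Grows G 1 := by
  obtain ⟨S⟩ := exists_gen hG
  exact ⟨S.set, 1, fun n => by rw [pow_one, one_mul]; exact ball_card_gt S n⟩

/-- A copy of `ℤ` outside the kernel adds a degree. -/
theorem grows_succ {χ : G →* Multiplicative ℤ} {t : G} (ht : χ t = Multiplicative.ofAdd 1) {k : ℕ}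
    (h : Grows χ.ker k) : Grows G (k + 1) := by
  obtain ⟨T, C, hC⟩ := h
  set U : Finset G := insert 1 (insert t (T.image (fun x : χ.ker => (x : G)))) with hU
  refine ⟨U, 2 ^ (k + 1) * C, fun m => ?_⟩
  calc (m + 1) ^ (k + 1) ≤ (2 * (m / 2 + 1)) ^ (k + 1) := by gcongr; omega
    _ = 2 ^ (k + 1) * ((m / 2 + 1) ^ k * (m / 2 + 1)) := by rw [mul_pow, pow_succ (m / 2 + 1)]
    _ ≤ 2 ^ (k + 1) * (C * ((T ^ (m / 2)).card * (m / 2 + 1))) := by
        rw [← mul_assoc C]
        exact Nat.mul_le_mul_left _ (Nat.mul_le_mul_right _ (by convert hC _ using 0; congr!))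
    _ ≤ 2 ^ (k + 1) * (C * (U ^ m).card) :=
        Nat.mul_le_mul_left _ (Nat.mul_le_mul_left _ ((card_mul_le ht T (m / 2)).trans
          (card_le_card (Finset.pow_subset_pow_right (Finset.mem_insert_self _ _) (by omega)))))
    _ = _ := (mul_assoc _ _ _).symm

/-- A subgroup of finite index isomorphic to `ℤ`. -/
def IsVirtuallyInt (G : Type*) [Group G] : Prop :=
  ∃ N : Subgroup G, N.FiniteIndex ∧ Nonempty (N ≃* Multiplicative ℤ)

/-- A subgroup of finite index isomorphic to `ℤ²`. -/
def IsVirtuallyIntSq (G : Type*) [Group G] : Prop :=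
  ∃ N : Subgroup G, N.FiniteIndex ∧ Nonempty (N ≃* Multiplicative (ℤ × ℤ))

theorem exists_subgroup_of_hom {A : Type*} [Group A] (f : A →* G) (hf : Function.Injective f)
    {K : Subgroup G} (hK : K.FiniteIndex) (hle : K ≤ f.range) :
    ∃ N : Subgroup G, N.FiniteIndex ∧ Nonempty (N ≃* A) :=
  ⟨f.range, by have := hK; exact Subgroup.finiteIndex_of_le hle,
    ⟨(MonoidHom.ofInjective hf).symm⟩⟩

theorem exists_subgroup_up {A : Type*} [Group A] {M : Subgroup G} [M.FiniteIndex]
    (h : ∃ N : Subgroup M, N.FiniteIndex ∧ Nonempty (N ≃* A)) :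
    ∃ N : Subgroup G, N.FiniteIndex ∧ Nonempty (N ≃* A) := by
  obtain ⟨N, hN, ⟨e⟩⟩ := h
  refine ⟨N.map M.subtype, ⟨?_⟩,
    ⟨(N.equivMapOfInjective M.subtype Subtype.val_injective).symm.trans e⟩⟩
  rw [Subgroup.index_map_subtype]
  exact mul_ne_zero hN.index_ne_zero Subgroup.FiniteIndex.index_ne_zero

/-- An element outside the kernel generates a copy of `ℤ` of finite index over a finite kernel. -/
theorem isVirtuallyInt_of_finite_ker {χ : G →* Multiplicative ℤ} {t : G}
    (ht : χ t = Multiplicative.ofAdd 1) (hfin : Finite χ.ker) : IsVirtuallyInt G := by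
  have hi : ((⊥ : Subgroup G).subgroupOf χ.ker).FiniteIndex := inferInstance
  refine exists_subgroup_of_hom (zpowersHom G t) (fun a b hab => ?_)
    (finiteIndex_sup_zpowers (⊥ : Subgroup G) hi ht Nat.one_pos) ?_
  · have := congrArg χ hab
    simp only [zpowersHom_apply, chi_zpow ht] at this
    exact this
  · rw [bot_sup_eq, pow_one, Subgroup.zpowers_le]
    exact ⟨Multiplicative.ofAdd 1, by simp⟩

/-- An automorphism of an infinite cyclic normal subgroup squares to the identity. -/
theorem commute_sq {L : Subgroup G} [L.Normal] {z : G} (hL : L = Subgroup.zpowers z)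
    (hz : ¬ IsOfFinOrder z) (t : G) : Commute (t ^ 2) z := by
  have hzL : z ∈ L := hL ▸ Subgroup.mem_zpowers z
  have hconj : ∀ g : G, ∃ a : ℤ, g * z * g⁻¹ = z ^ a := fun g => by
    obtain ⟨a, ha⟩ := Subgroup.mem_zpowers_iff.1 (hL ▸ Subgroup.Normal.conj_mem ‹_› z hzL g)
    exact ⟨a, ha.symm⟩
  obtain ⟨a, ha⟩ := hconj t
  obtain ⟨b, hb⟩ := hconj t⁻¹
  have hinj := injective_zpow_iff_not_isOfFinOrder.2 hz
  have hab : a * b = 1 := by
    apply hinj
    show z ^ (a * b) = z ^ (1 : ℤ)
    rw [zpow_mul, ← ha, conj_zpow, ← hb, zpow_one]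
    group
  have h2 : t * (t * z * t⁻¹) * t⁻¹ = z := by
    rw [ha, ← conj_zpow, ha, ← zpow_mul]
    rcases Int.eq_one_or_neg_one_of_mul_eq_one hab with rfl | rfl <;> simp
  show t ^ 2 * z = z * t ^ 2
  calc t ^ 2 * z = t * (t * z * t⁻¹) * t⁻¹ * t ^ 2 := by simp only [pow_two]; group
    _ = _ := by rw [h2]

/-- A finitely generated infinite nilpotent group of less than cubic growth is virtually `ℤ` or
`ℤ²`. -/
theorem small_nilpotent [Group.IsNilpotent G] [Infinite G] (hG : Group.FG G) :
    IsVirtuallyInt G ∨ IsVirtuallyIntSq G ∨ Grows G 3 := by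
  obtain ⟨S⟩ := exists_gen hG
  obtain ⟨C, d, hC⟩ := polyBall_of_isNilpotent S.set
  have hd : WeakLE G d := (S.growthLE hC).weak
  have hsplit : ∀ {A : Type _} [Group A] [Group.IsNilpotent A] [Infinite A], Group.FG A →
      ∃ (χ : A →* Multiplicative ℤ) (t : A), χ t = Multiplicative.ofAdd 1 := by
    intro A _ _ _ hA
    have := hA
    have : Infinite (Abelianization A) := not_finite_iff_infinite.1 fun hf =>
      (not_finite_iff_infinite.2 inferInstance) (finite_of_abelianization inferInstance hf)
    have : Group.FG (Abelianization A) := Group.fg_of_surjective abelianization_of_surjective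
    obtain ⟨χ, hχ⟩ := exists_surjective_int (A := Abelianization A)
    obtain ⟨t, ht⟩ := (hχ.comp abelianization_of_surjective) (Multiplicative.ofAdd 1)
    exact ⟨χ.comp Abelianization.of, t, ht⟩
  obtain ⟨χ, t, ht⟩ := hsplit hG
  rcases finite_or_infinite χ.ker with hfin | hinf
  · exact Or.inl (isVirtuallyInt_of_finite_ker ht hfin)
  have hKfg := fg_ker hG hd ht
  obtain ⟨ψ, u, hu⟩ := hsplit hKfg
  rcases finite_or_infinite ψ.ker with hfin | hinf'
  · obtain ⟨Z, hZi, ⟨e⟩⟩ := isVirtuallyInt_of_finite_ker hu hfin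
    have := hZi
    obtain ⟨L, hLn, hLZ, hLi⟩ := exists_core_le χ.ker hKfg Z
    have := hLi
    have hLK : L ≤ χ.ker := hLZ.trans (Subgroup.map_subtype_le Z)
    have hLinf : Infinite L := not_finite_iff_infinite.1 fun hf => by
      have := hf
      have : Finite (L.subgroupOf χ.ker) :=
        Finite.of_equiv _ (Subgroup.subgroupOfEquivOfLe hLK).symm.toEquiv
      have := Subgroup.finite_quotient_of_finiteIndex (H := L.subgroupOf χ.ker)
      exact (not_finite_iff_infinite.2 hinf) (Finite.of_subgroup_quotient (L.subgroupOf χ.ker))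
    have hcyc : IsCyclic (Z.map χ.ker.subtype) := isCyclic_of_surjective
      ((e.symm.trans (Z.equivMapOfInjective χ.ker.subtype Subtype.val_injective)).toMonoidHom)
      (MulEquiv.surjective _)
    have : IsCyclic L := isCyclic_of_surjective
      (Subgroup.subgroupOfEquivOfLe hLZ).toMonoidHom (MulEquiv.surjective _)
    obtain ⟨z, hz⟩ := (L.isCyclic_iff_exists_zpowers_eq_top).1 this
    have hord : ¬ IsOfFinOrder z := fun hf => (not_finite_iff_infinite.2 hLinf) (by
      rw [← hz]
      exact hf.finite_zpowers.to_subtype)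
    have hcomm := commute_sq hz.symm hord t
    have hzker : χ z = 1 := hLK (hz ▸ Subgroup.mem_zpowers z)
    let f : Multiplicative (ℤ × ℤ) →* G :=
      { toFun := fun p => z ^ p.toAdd.1 * (t ^ 2) ^ p.toAdd.2
        map_one' := by simp
        map_mul' := fun p q => by
          simp only [toAdd_mul, Prod.fst_add, Prod.snd_add, zpow_add]
          exact (Commute.zpow_zpow (Commute.symm hcomm) _ _).mul_mul_mul_comm _ _ }
    refine Or.inr (Or.inl (exists_subgroup_of_hom f (fun p q hpq => ?_)
      (finiteIndex_sup_zpowers L hLi ht Nat.two_pos) ?_))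
    · have h1 := congrArg χ hpq
      simp only [f, MonoidHom.coe_mk, OneHom.coe_mk, map_mul, map_zpow, hzker, one_zpow, one_mul,
        map_pow, ht] at h1
      have h2 : p.toAdd.2 = q.toAdd.2 := by
        have h3 := congrArg Multiplicative.toAdd h1
        simp at h3
        omega
      simp only [f, MonoidHom.coe_mk, OneHom.coe_mk, h2, mul_right_cancel_iff] at hpq
      exact Multiplicative.toAdd.injective
        (Prod.ext (injective_zpow_iff_not_isOfFinOrder.2 hord hpq) h2)
    · rw [sup_le_iff, ← hz, Subgroup.zpowers_le, Subgroup.zpowers_le]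
      exact ⟨⟨Multiplicative.ofAdd (1, 0), by simp [f]⟩, ⟨Multiplicative.ofAdd (0, 1), by simp [f]⟩⟩
  · have hdK : WeakLE χ.ker d := hd.of_injective χ.ker.subtype Subtype.val_injective
    exact Or.inr (Or.inr (grows_succ ht (grows_succ hu (grows_one (fg_ker hKfg hdK hu)))))

/-- **Growth trichotomy.** -/
theorem trichotomy [Infinite G] (hG : Group.FG G) :
    IsVirtuallyInt G ∨ IsVirtuallyIntSq G ∨ Grows G 3 := by
  by_cases hv : Group.IsVirtuallyNilpotent G
  · obtain ⟨M, hM, hMi⟩ := hv
    have := hMi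
    have := hM
    have := hG
    have : Infinite M := not_finite_iff_infinite.1 fun hf => by
      have := hf
      have := Subgroup.finite_quotient_of_finiteIndex (H := M)
      exact (not_finite_iff_infinite.2 inferInstance) (Finite.of_subgroup_quotient M)
    rcases small_nilpotent (Subgroup.fg_of_index_ne_zero M) with h | h | h
    · exact Or.inl (exists_subgroup_up h)
    · exact Or.inr (Or.inl (exists_subgroup_up h))
    · exact Or.inr (Or.inr (h.of_injective M.subtype Subtype.val_injective))
  · refine Or.inr (Or.inr ?_)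
    obtain ⟨S⟩ := exists_gen hG
    have hnot : ¬ ∀ n₀, ∃ n, n₀ ≤ n ∧ (S.ball n).card ≤ 1 * (n + 1) ^ 3 := fun h =>
      hv (isVirtuallyNilpotent_of_weakLE 3 G hG (S.weakLE h))
    simp only [not_forall, not_exists, not_and, not_le, one_mul] at hnot
    obtain ⟨n₀, hn₀⟩ := hnot
    refine ⟨S.set, (n₀ + 1) ^ 3, fun n => ?_⟩
    rcases Nat.lt_or_ge n n₀ with h | h
    · exact le_trans (Nat.pow_le_pow_left (by omega) 3)
        (Nat.le_mul_of_pos_right _ (S.card_ball_pos n))
    · exact le_trans (hn₀ n h).le (Nat.le_mul_of_pos_left _ (by positivity))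

end FA.Varopoulos
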